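/-
S44, block X, sub-block COVER / HECKE (helper103): the Gauss valuation ring `G` of `FN L` attached
to `A`, the hypotheses `GHyp` for `G` and for its transform `wG D G` by the Atkin-Lehner involution.
-/
import Fermat.Agent.S44.X.Cover.Inst
import Fermat.Agent.C1.Red.Field
import Fermat.Agent.C1.AL

set_option autoImplicit false

noncomputable section

namespace Fermat.Agent.S44.X.Cover.Hecke

open ModularCurve AlgebraicCurve Fermat.Agent.S24 Fermat.Agent.GAL Fermat.Agent.GAL.E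
open Fermat.Agent.C1

variable {A : ValuationSubring Kbar}

/-- `f` is integral for the Gauss valuation of `ℚ̄((q))` attached to `A`. -/
def IntS (A : ValuationSubring Kbar) (f : LaurentSeries Kbar) : Prop :=
  ∃ P Q : LaurentSeries A, red A Q ≠ 0 ∧ f * incl A Q = incl A P

theorem IntS.zero : IntS A 0 :=
  ⟨0, 1, by rw [map_one]; exact one_ne_zero, by rw [zero_mul, map_zero]⟩

theorem IntS.one : IntS A 1 :=
  ⟨1, 1, by rw [map_one]; exact one_ne_zero, by rw [one_mul]⟩

theorem IntS.mul {f g : LaurentSeries Kbar} (hf : IntS A f) (hg : IntS A g) : IntS A (f * g) := by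
  obtain ⟨P, Q, hQ, h⟩ := hf
  obtain ⟨P', Q', hQ', h'⟩ := hg
  refine ⟨P * P', Q * Q', by rw [map_mul]; exact mul_ne_zero hQ hQ', ?_⟩
  rw [map_mul, map_mul, ← h, ← h']
  ring

theorem IntS.add {f g : LaurentSeries Kbar} (hf : IntS A f) (hg : IntS A g) : IntS A (f + g) := by
  obtain ⟨P, Q, hQ, h⟩ := hf
  obtain ⟨P', Q', hQ', h'⟩ := hg
  refine ⟨P * Q' + P' * Q, Q * Q', by rw [map_mul]; exact mul_ne_zero hQ hQ', ?_⟩
  rw [map_add, map_mul, map_mul, map_mul, ← h, ← h']
  ring

theorem IntS.neg {f : LaurentSeries Kbar} (hf : IntS A f) : IntS A (-f) := by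
  obtain ⟨P, Q, hQ, h⟩ := hf
  exact ⟨-P, Q, hQ, by rw [map_neg, ← h, neg_mul]⟩

theorem IntS.const {c : Kbar} (hc : c ∈ A) : IntS A (HahnSeries.C c) :=
  ⟨HahnSeries.C (⟨c, hc⟩ : A), 1, by rw [map_one]; exact one_ne_zero,
    by rw [map_one, mul_one, C1.incl_C]⟩

/-- a constant which is Gauss-integral lies in `A` -/
theorem IntS.mem_of_const {c : Kbar} (h : IntS A (HahnSeries.C c)) : c ∈ A := by
  obtain ⟨P, Q, hQ, h⟩ := h
  -- a coefficient of `Q` is a unit
  obtain ⟨n, hn⟩ : ∃ n : ℤ, (red A Q).coeff n ≠ 0 := by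
    by_contra hcon
    exact hQ (HahnSeries.ext (funext fun n => by
      by_contra h0
      exact hcon ⟨n, h0⟩))
  have hn' : IsLocalRing.residue A (Q.coeff n) ≠ 0 := by
    have : (red A Q).coeff n = IsLocalRing.residue A (Q.coeff n) := coeffMap_coeff _ _ _
    rwa [this] at hn
  have hu : IsUnit (Q.coeff n) := by
    by_contra hnu
    exact hn' ((IsLocalRing.residue_eq_zero_iff _).2 ((IsLocalRing.mem_maximalIdeal _).2 hnu))
  have hc : c * ((Q.coeff n : A) : Kbar) = ((P.coeff n : A) : Kbar) := by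
    have := congrArg (fun s : LaurentSeries Kbar => s.coeff n) h
    simp only [HahnSeries.C_mul_eq_smul, HahnSeries.coeff_smul, smul_eq_mul] at this
    have e1 : (incl A Q).coeff n = ((Q.coeff n : A) : Kbar) := coeffMap_coeff _ _ _
    have e2 : (incl A P).coeff n = ((P.coeff n : A) : Kbar) := coeffMap_coeff _ _ _
    rwa [e1, e2] at this
  obtain ⟨u, hu⟩ := hu
  have h1 : ((Q.coeff n : A) : Kbar) * (((u⁻¹ : Aˣ) : A) : Kbar) = 1 := by
    rw [← hu]
    exact congrArg (Subtype.val : A → Kbar) u.mul_inv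
  have : c = ((P.coeff n : A) : Kbar) * (((u⁻¹ : Aˣ) : A) : Kbar) := by
    rw [← hc, mul_assoc, h1, mul_one]
  rw [this]
  exact A.mul_mem _ _ (P.coeff n).2 ((u⁻¹ : Aˣ) : A).2

theorem IntS.of_redS {f : LaurentSeries Kbar} {c : Kbar}
    {r : LaurentSeries (IsLocalRing.ResidueField A)} (h : RedS A f c r) (hc : c ∈ A) :
    IntS A f := by
  obtain ⟨-, P, Q, -, hQ, h1, -⟩ := h
  exact ⟨HahnSeries.C (⟨c, hc⟩ : A) * P, Q, hQ, by rw [h1, map_mul, C1.incl_C]⟩

theorem IntS.gal {f : LaurentSeries Kbar} (h : IntS A f) (τ : GQ)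
    (hτ : τ ∈ A.inertiaSubgroupIn ℚ) : IntS A (coeffMap (τ : Kbar →+* Kbar) f) := by
  obtain ⟨P, Q, hQ, h1⟩ := h
  obtain ⟨P', hP1, -⟩ := exists_gal_of_inertia A τ hτ P
  obtain ⟨Q', hQ1, hQ2⟩ := exists_gal_of_inertia A τ hτ Q
  exact ⟨P', Q', by rwa [hQ2], by rw [hP1, hQ1, ← map_mul, h1]⟩

/-- The Gauss valuation ring of `FN L`. -/
def gaussFN (A : ValuationSubring Kbar) {p : ℕ} (hp : p.Prime) (hA : A.LiesOverPrime p) (L : ℕ) :
    ValuationSubring (FN L) where
  carrier := {f | IntS A (f : LaurentSeries Kbar)}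
  mul_mem' := fun ha hb => IntS.mul ha hb
  one_mem' := IntS.one
  add_mem' := fun ha hb => IntS.add ha hb
  zero_mem' := IntS.zero
  neg_mem' := fun ha => IntS.neg ha
  mem_or_inv_mem' := by
    intro f
    by_cases hf : f = 0
    · left
      rw [hf]
      exact IntS.zero
    · obtain ⟨c, r, h⟩ := exists_redS hp hA f hf
      rcases A.mem_or_inv_mem c with hc | hc
      · exact Or.inl (IntS.of_redS h hc)
      · exact Or.inr (IntS.of_redS h.inv hc)

theorem mem_gaussFN {p : ℕ} (hp : p.Prime) (hA : A.LiesOverPrime p) (L : ℕ) (f : FN L) :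
    f ∈ gaussFN A hp hA L ↔ IntS A (f : LaurentSeries Kbar) := Iff.rfl

theorem isGaussFN_gaussFN {p : ℕ} (hp : p.Prime) (hA : A.LiesOverPrime p) (L : ℕ) :
    IsGaussFN A L (gaussFN A hp hA L) := fun _ => Iff.rfl

/-- `GHyp` for any Gauss ring. -/
theorem gHyp_of_isGaussFN {p : ℕ} (hp : p.Prime) (hA : A.LiesOverPrime p) {L : ℕ}
    {G : ValuationSubring (FN L)} (hG : IsGaussFN A L G) : GHyp A (S44.Iner A) L G := by
  have hmem : ∀ f : FN L, f ∈ G ↔ IntS A (f : LaurentSeries Kbar) := hG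
  have hgal : ∀ τ ∈ S44.Iner A, ∀ f : FN L, f ∈ G → E.galF L τ f ∈ G := by
    intro τ hτ f hf
    rw [hmem] at hf ⊢
    rw [coe_galF]
    exact hf.gal τ hτ
  refine ⟨?_, ?_, ?_⟩
  · intro c
    rw [hmem, RedField.coe_algebraMap]
    exact ⟨IntS.mem_of_const, IntS.const⟩
  · intro τ hτ f
    refine ⟨fun h => ?_, hgal τ hτ f⟩
    have := hgal τ⁻¹ ((S44.Iner A).inv_mem hτ) _ h
    rwa [← galF_mul, inv_mul_cancel, galF_one] at this
  · intro f hf
    obtain ⟨c, r, h⟩ := exists_redS hp hA f hf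
    have hc : c ≠ 0 := h.1
    have hc' : algebraMap Kbar (FN L) c ≠ 0 := (map_ne_zero _).2 hc
    refine ⟨c, hc, ?_⟩
    have h1 : RedS A ((f / algebraMap Kbar (FN L) c : FN L) : LaurentSeries Kbar) 1 r := by
      have := h.div (RedS.const (A := A) hc)
      rwa [div_self hc, div_one, ← RedField.coe_algebraMap (N := L), ← RedField.coe_div] at this
    have m1 : f / algebraMap Kbar (FN L) c ∈ G := (hmem _).2 (IntS.of_redS h1 A.one_mem)
    have m2 : (f / algebraMap Kbar (FN L) c)⁻¹ ∈ G := by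
      rw [hmem]
      have := h1.inv
      rw [inv_one] at this
      exact IntS.of_redS this A.one_mem
    have l1 := (G.valuation_le_one_iff _).2 m1
    have l2 := (G.valuation_le_one_iff _).2 m2
    rw [map_inv₀] at l2
    have hne : G.valuation (f / algebraMap Kbar (FN L) c) ≠ 0 :=
      (map_ne_zero _).2 (div_ne_zero hf hc')
    exact le_antisymm l1 ((inv_le_one₀ (zero_lt_iff.2 hne)).1 l2)

/-- `GHyp` for the transform by the Atkin-Lehner involution. -/
theorem gHyp_wG {I : Subgroup S44.GQ} {M q : ℕ} [NeZero M] [NeZero q] (hq : q.Prime)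
    (D : C1.ALData M q) {G : ValuationSubring (FN (M * q))} (hG : GHyp A I (M * q) G) :
    GHyp A I (M * q) (wG D G) := by
  have hmem : ∀ f : FN (M * q), f ∈ wG D G ↔ D.w f ∈ G := fun _ => Iff.rfl
  refine ⟨?_, ?_, ?_⟩
  · intro c
    rw [hmem, D.w.commutes]
    exact hG.const c
  · intro τ hτ f
    rw [hmem, hmem, D.w_galF hq]
    exact hG.gal τ hτ _
  · intro f hf
    obtain ⟨c, hc, h⟩ := hG.arch (D.w f) ((map_ne_zero_iff _ D.w_injective).2 hf)
    refine ⟨c, hc, ?_⟩
    have hx : ∀ x : FN (M * q), G.valuation (D.w x) = 1 → (wG D G).valuation x = 1 := by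
      intro x hx
      have hx0 : x ≠ 0 := by
        rintro rfl
        rw [map_zero, map_zero] at hx
        exact zero_ne_one hx
      have m1 : x ∈ wG D G := (hmem x).2 ((G.valuation_le_one_iff _).1 hx.le)
      have m2 : x⁻¹ ∈ wG D G := by
        rw [hmem, map_inv₀]
        apply (G.valuation_le_one_iff _).1
        rw [map_inv₀, hx, inv_one]
      have l1 := ((wG D G).valuation_le_one_iff _).2 m1
      have l2 := ((wG D G).valuation_le_one_iff _).2 m2
      rw [map_inv₀] at l2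
      have hne : (wG D G).valuation x ≠ 0 := (map_ne_zero _).2 hx0
      exact le_antisymm l1 ((inv_le_one₀ (zero_lt_iff.2 hne)).1 l2)
    apply hx
    rw [map_div₀, D.w.commutes]
    exact h

end Fermat.Agent.S44.X.Cover.Hecke

end
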