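/-
S44, block X, sub-block COVER / HECKE (helper103): the Hecke operators preserve the deep congruences
for the Gauss valuation ring of `FN L`; `nodeGaussFN`.
-/
import Fermat.Agent.S44.X.Cover.Hecke.Gauss
import Fermat.Agent.S33.New.CongDField

set_option autoImplicit false

noncomputable section

namespace Fermat.Agent.S44.X.Cover.Hecke

open ModularCurve AlgebraicCurve Fermat.Agent.S24 Fermat.Agent.S24.B Fermat.Agent.GAL
  Fermat.Agent.GAL.E
open Fermat.Agent.C1 Fermat.Agent.S33.New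

variable {A : ValuationSubring Kbar}

/-- twisting by a root of unity preserves the deep congruences -/
theorem congD_twist {d : Kbar} {f : LaurentSeries Kbar} (h : CongD A d f) (ζ : Kbarˣ) (m : ℕ)
    (hm : m ≠ 0) (hζ : ζ ^ m = 1) : CongD A d (twist ζ f) := by
  obtain ⟨z, hz⟩ := exists_unit_of_pow_eq_one A ζ m hm hζ
  obtain ⟨P, Q, hQ, h1⟩ := h
  refine ⟨Ops.twA z P, Ops.twA z Q, ?_, ?_⟩
  · rw [Ops.red_twA]
    exact fun h0 => hQ ((twist_eq_zero_iff _ _).1 h0)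
  · rw [Ops.incl_twA ζ z hz, Ops.incl_twA ζ z hz, ← twist_C ζ d, ← map_mul, ← h1, map_mul, map_sub,
      map_one]

theorem congD_prod {ι : Type*} (s : Finset ι) {d : Kbar} (hd : d ∈ A)
    {F : ι → LaurentSeries Kbar} (h : ∀ i ∈ s, CongD A d (F i)) : CongD A d (∏ i ∈ s, F i) := by
  classical
  induction s using Finset.induction_on with
  | empty => rw [Finset.prod_empty]; exact CongD.one A d
  | insert a s ha ih =>
    rw [Finset.prod_insert ha]
    exact (h a (Finset.mem_insert_self a s)).mul hd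
      (ih fun i hi => h i (Finset.mem_insert_of_mem hi))

/-- **The Hecke operators preserve the deep congruences.** -/
theorem congD_T {p : ℕ} (hp : p.Prime) (hA : A.LiesOverPrime p) {L ℓ : ℕ} [NeZero ℓ]
    (H : HeckeOp L ℓ) {d : Kbar} (hd : d ∈ A) (hd0 : d ≠ 0) {f : FN L}
    (hf : CongD A d (f : LaurentSeries Kbar)) : CongD A d ((H.T f : FN L) : LaurentSeries Kbar) := by
  have hℓ : ℓ ≠ 0 := NeZero.ne ℓ
  have : NeZero (ℓ * ℓ) := ⟨mul_ne_zero hℓ hℓ⟩
  apply CongD.of_qExpand hp hA hd0 (H.T f) ℓ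
  rw [H.qExpand_T f]
  refine (hf.map_qExpand (ℓ * ℓ)).mul hd (congD_prod _ hd fun b _ => ?_)
  refine congD_twist hf _ ℓ hℓ ?_
  rw [← pow_mul, mul_comm, pow_mul, (isPrimitiveRoot_zetaK ℓ).pow_eq_one, one_pow]

/-- `Deep` for a Gauss ring is `CongD`. -/
theorem deep_iff_congD {L : ℕ} {G : ValuationSubring (FN L)} (hG : IsGaussFN A L G) {p : ℕ}
    (hp : p ≠ 0) (n : ℕ) (f : FN L) :
    Deep G p n f ↔ CongD A ((p : Kbar) ^ n) (f : LaurentSeries Kbar) := by
  have hd0 : ((p : Kbar) ^ n) ≠ 0 := pow_ne_zero _ (Nat.cast_ne_zero.2 hp)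
  have hC : (HahnSeries.C ((p : Kbar) ^ n) : LaurentSeries Kbar) ≠ 0 := hahnC_ne_zero hd0
  have hcoe : (((f - 1) / (p : FN L) ^ n : FN L) : LaurentSeries Kbar) =
      ((f : LaurentSeries Kbar) - 1) / HahnSeries.C ((p : Kbar) ^ n) := by
    have h1 : ((p : FN L) ^ n) = algebraMap Kbar (FN L) ((p : Kbar) ^ n) := by
      rw [map_pow, map_natCast]
    rw [h1, RedField.coe_div, RedField.coe_algebraMap]
    rfl
  unfold Deep
  rw [hG, hcoe]
  constructor
  · rintro ⟨P, Q, hQ, h⟩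
    refine ⟨P, Q, hQ, ?_⟩
    rw [← h]
    field_simp
  · rintro ⟨P, Q, hQ, h⟩
    refine ⟨P, Q, hQ, ?_⟩
    rw [div_mul_eq_mul_div, h, mul_div_cancel_left₀ _ hC]

theorem tDeep_of_isGaussFN {p : ℕ} (hp : p.Prime) (hA : A.LiesOverPrime p) {L ℓ : ℕ} [NeZero ℓ]
    {G : ValuationSubring (FN L)} (hG : IsGaussFN A L G) (H : HeckeOp L ℓ) : TDeep p G H := by
  intro n f hf
  rw [deep_iff_congD hG hp.ne_zero] at hf ⊢
  have hpA : (p : Kbar) ∈ A := A.nonunits_subset hA
  exact congD_T hp hA H (A.pow_mem hpA n) (pow_ne_zero _ (Nat.cast_ne_zero.2 hp.ne_zero)) hf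

/-- `TDeep` for the Atkin-Lehner transform, from `T w = w T`. -/
theorem tDeep_wG {M q ℓ p : ℕ} [NeZero M] [NeZero q] [NeZero ℓ] (D : C1.ALData M q)
    {G : ValuationSubring (FN (M * q))} (H : HeckeOp (M * q) ℓ)
    (hTW : ∀ u : FN (M * q), D.w (H.T u) = H.T (D.w u)) (hT : TDeep p G H) :
    TDeep p (wG D G) H := by
  intro n f hf
  have key : ∀ g : FN (M * q), Deep (wG D G) p n g ↔ Deep G p n (D.w g) := by
    intro g
    unfold Deep
    show D.w ((g - 1) / (p : FN (M * q)) ^ n) ∈ G ↔ _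
    rw [map_div₀, map_sub, map_one, map_pow, map_natCast]
  rw [key] at hf ⊢
  rw [hTW]
  exact hT n _ hf

/-- **Node GaussFN.** -/
theorem nodeGaussFN : NodeGaussFN := by
  intro A p M _ _ hp hA _
  have hG := isGaussFN_gaussFN hp hA (M * p)
  have hH := gHyp_of_isGaussFN hp hA hG
  exact ⟨gaussFN A hp hA (M * p), hG, hH, fun D => gHyp_wG hp D hH,
    fun ℓ _ H _ _ => tDeep_of_isGaussFN hp hA hG H⟩

end Fermat.Agent.S44.X.Cover.Hecke

end
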