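/-
S44, block X, sub-block COVER, instance HECKE/GAUSS (helper51): the multiplicative Hecke operators
preserve the deep congruences for the Gauss valuation ring of `FN L`
(and for its transform by the Atkin-Lehner involution, given `NodeTW`).
-/
import Fermat.Agent.S44.X.Cover.Inst
import Fermat.Agent.S33.New.CongDField

set_option autoImplicit false

noncomputable section

namespace Fermat.Agent.S44.X.Cover

open ModularCurve AlgebraicCurve Fermat.Agent.S24 Fermat.Agent.S24.B Fermat.Agent.GAL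
open Fermat.Agent.C1 Fermat.Agent.S33.New

variable {A : ValuationSubring Kbar}

/-- twisting by a unit of `A` preserves deep congruences -/
theorem congD_map_twist {d : Kbar} {f : LaurentSeries Kbar} (h : CongD A d f) (ζ : Kbarˣ)
    (m : ℕ) (hm : m ≠ 0) (hζ : ζ ^ m = 1) : CongD A d (twist ζ f) := by
  obtain ⟨z, hz⟩ := exists_unit_of_pow_eq_one A ζ m hm hζ
  obtain ⟨P, Q, hQ, h1⟩ := h
  refine ⟨Ops.twA z P, Ops.twA z Q, ?_, ?_⟩
  · rw [Ops.red_twA]
    exact fun h0 => hQ ((twist_eq_zero_iff _ _).1 h0)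
  · rw [Ops.incl_twA ζ z hz, Ops.incl_twA ζ z hz, ← twist_C ζ d, ← map_mul, ← h1, map_mul, map_sub,
      map_one]

theorem congD_prod {d : Kbar} (hd : d ∈ A) {ι : Type*} (s : Finset ι)
    {F : ι → LaurentSeries Kbar} (h : ∀ i ∈ s, CongD A d (F i)) : CongD A d (∏ i ∈ s, F i) := by
  classical
  induction s using Finset.induction_on with
  | empty => rw [Finset.prod_empty]; exact CongD.one A d
  | insert a s ha ih =>
    rw [Finset.prod_insert ha]
    exact (h a (Finset.mem_insert_self a s)).mul hd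
      (ih fun i hi => h i (Finset.mem_insert_of_mem hi))

/-- `Deep` for the Gauss valuation ring is `CongD`. -/
theorem deep_iff_congD {L : ℕ} {G : ValuationSubring (FN L)} (hG : IsGaussFN A L G) {p : ℕ}
    (hp : p ≠ 0) (n : ℕ) (f : FN L) :
    Deep G p n f ↔ CongD A ((p : Kbar) ^ n) (f : LaurentSeries Kbar) := by
  have hp0 : ((p : FN L) ^ n) ≠ 0 := pow_ne_zero _ (Nat.cast_ne_zero.2 hp)
  have hC : (((p : FN L) ^ n : FN L) : LaurentSeries Kbar) = HahnSeries.C ((p : Kbar) ^ n) := by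
    have : ((p : FN L) ^ n : FN L) = algebraMap Kbar (FN L) ((p : Kbar) ^ n) := by
      rw [map_pow, map_natCast]
    rw [this]
    exact RedField.coe_algebraMap _
  have hC0 : (HahnSeries.C ((p : Kbar) ^ n) : LaurentSeries Kbar) ≠ 0 :=
    hahnC_ne_zero (pow_ne_zero _ (Nat.cast_ne_zero.2 hp))
  have hcoe : (((f - 1) / (p : FN L) ^ n : FN L) : LaurentSeries Kbar) =
      ((f : LaurentSeries Kbar) - 1) / HahnSeries.C ((p : Kbar) ^ n) := by
    rw [RedField.coe_div, hC]
    rfl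
  unfold Deep CongD
  rw [hG, hcoe]
  constructor
  · rintro ⟨P, Q, hQ, h⟩
    refine ⟨P, Q, hQ, ?_⟩
    rw [← h]
    field_simp
  · rintro ⟨P, Q, hQ, h⟩
    refine ⟨P, Q, hQ, ?_⟩
    rw [div_mul_eq_mul_div, h, mul_div_cancel_left₀ _ hC0]

/-- **TDeep for the Gauss valuation ring.** -/
theorem tDeep_gauss {p : ℕ} (hp : p.Prime) (hA : A.LiesOverPrime p) {L ℓ : ℕ} [NeZero ℓ]
    {G : ValuationSubring (FN L)} (hG : IsGaussFN A L G) (H : E.HeckeOp L ℓ) : TDeep p G H := by
  intro n f hf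
  rw [deep_iff_congD hG hp.ne_zero] at hf ⊢
  have hℓ : ℓ ≠ 0 := NeZero.ne ℓ
  have : NeZero (ℓ * ℓ) := ⟨mul_ne_zero hℓ hℓ⟩
  have hd : ((p : Kbar) ^ n) ∈ A := pow_mem (ValuationSubring.nonunits_subset hA) n
  have hd0 : ((p : Kbar) ^ n) ≠ 0 := pow_ne_zero _ (Nat.cast_ne_zero.2 hp.ne_zero)
  apply CongD.of_qExpand hp hA hd0 (H.T f) ℓ
  rw [H.qExpand_T f]
  refine (hf.map_qExpand (ℓ * ℓ)).mul hd (congD_prod hd _ fun b _ => ?_)
  refine congD_map_twist hf _ ℓ hℓ ?_
  rw [← pow_mul, mul_comm, pow_mul, (isPrimitiveRoot_zetaK ℓ).pow_eq_one, one_pow]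

/-- **TDeep for the Atkin-Lehner transform**, given the commutation `w T = T w`. -/
theorem tDeep_wG {p M q ℓ : ℕ} [NeZero M] [NeZero q] [NeZero ℓ] (D : C1.ALData M q)
    {G : ValuationSubring (FN (M * q))} (H : E.HeckeOp (M * q) ℓ)
    (hTW : ∀ u : FN (M * q), D.w (H.T u) = H.T (D.w u)) (hT : TDeep p G H) :
    TDeep p (wG D G) H := by
  intro n f hf
  have key : ∀ g : FN (M * q), Deep (wG D G) p n g ↔ Deep G p n (D.w g) := by
    intro g
    unfold Deep wG
    rw [ValuationSubring.mem_comap]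
    have : (D.w : FN (M * q) →+* FN (M * q)) ((g - 1) / (p : FN (M * q)) ^ n) =
        (D.w g - 1) / (p : FN (M * q)) ^ n := by
      rw [map_div₀, map_sub, map_one, map_pow, map_natCast]
      rfl
    rw [this]
  rw [key] at hf ⊢
  rw [hTW]
  exact hT n _ hf

end Fermat.Agent.S44.X.Cover

end
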