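/-
S44, block X, sub-block COVER, instance HECKE/GAUSS (helper51): `GHyp` passes from a valuation ring
`G` of `FN (M q)` to its transform `wG D G` by the Atkin-Lehner involution.
-/
import Fermat.Agent.S44.X.Cover.Inst
import Fermat.Agent.C1.AL

set_option autoImplicit false

noncomputable section

namespace Fermat.Agent.S44.X.Cover

open ModularCurve AlgebraicCurve Fermat.Agent.S24 Fermat.Agent.GAL

variable {M q : ℕ} [NeZero M] [NeZero q]

theorem mem_wG (D : C1.ALData M q) (G : ValuationSubring (FN (M * q))) (f : FN (M * q)) :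
    f ∈ wG D G ↔ D.w f ∈ G := Iff.rfl

theorem valuation_wG_eq_one_iff (D : C1.ALData M q) (G : ValuationSubring (FN (M * q)))
    (f : FN (M * q)) : (wG D G).valuation f = 1 ↔ G.valuation (D.w f) = 1 := by
  have key : ∀ (F : Type) [Field F] (V : ValuationSubring F) (x : F),
      V.valuation x = 1 ↔ x ≠ 0 ∧ x ∈ V ∧ x⁻¹ ∈ V := by
    intro F _ V x
    rw [← V.valuation_le_one_iff, ← V.valuation_le_one_iff, map_inv₀]
    constructor
    · intro h
      refine ⟨?_, ?_⟩
      · rintro rfl
        rw [map_zero] at h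
        exact zero_ne_one h
      · rw [h]
        simp
    · rintro ⟨h0, h1, h2⟩
      have hx : V.valuation x ≠ 0 := (map_ne_zero _).2 h0
      exact le_antisymm h1 ((inv_le_one₀ (zero_lt_iff.2 hx)).1 h2)
  rw [key, key, mem_wG, mem_wG, map_inv₀, map_ne_zero]

theorem gHyp_wG {A : ValuationSubring Kbar} {I : Subgroup S44.GQ} (hq : q.Prime)
    (D : C1.ALData M q) {G : ValuationSubring (FN (M * q))} (h : GHyp A I (M * q) G) :
    GHyp A I (M * q) (wG D G) where
  const c := by rw [mem_wG, D.w.commutes, h.const]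
  gal τ hτ f := by rw [mem_wG, mem_wG, D.w_galF hq, h.gal τ hτ]
  arch f hf := by
    obtain ⟨c, hc, h1⟩ := h.arch (D.w f) ((map_ne_zero _).2 hf)
    refine ⟨c, hc, ?_⟩
    rw [valuation_wG_eq_one_iff, map_div₀, D.w.commutes]
    exact h1

end Fermat.Agent.S44.X.Cover

end
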